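import Mathlib.FieldTheory.Finite.Basic
import Mathlib.LinearAlgebra.Lagrange
import Mathlib.Data.Nat.Choose.Sum
import Mathlib.Data.Nat.Prime.Factorial

/-!
# Few difference quotients force an affine function

For a value `m` that is no difference quotient of `f`, the power sums of `f x - m x` vanish. So
`∑ x ^ i f(x) ^ j = 0` for small `i + j`, which confines the degree of the interpolating
polynomial.
-/

set_option autoImplicit false

noncomputable section

open Finset Polynomial

namespace FA.RedeiDirections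

variable {p : ℕ} [hp : Fact p.Prime]

/-- The difference quotients of a function. -/
def slopes (f : ZMod p → ZMod p) : Finset (ZMod p) :=
  ((univ ×ˢ univ).filter fun q : ZMod p × ZMod p => q.1 ≠ q.2).image
    fun q => (f q.2 - f q.1) / (q.2 - q.1)

theorem mem_slopes {f : ZMod p → ZMod p} {m : ZMod p} :
    m ∈ slopes f ↔ ∃ x y, x ≠ y ∧ (f y - f x) / (y - x) = m := by
  simp [slopes]

theorem bijective_of_not_mem {f : ZMod p → ZMod p} {m : ZMod p} (h : m ∉ slopes f) :
    Function.Bijective fun x => f x - m * x := by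
  refine Finite.injective_iff_bijective.1 fun x y hxy => by_contra fun hne => h ?_
  refine mem_slopes.2 ⟨x, y, hne, ?_⟩
  rw [div_eq_iff (sub_ne_zero.2 (Ne.symm hne))]
  linear_combination -hxy

theorem sum_pow_top : ∑ x : ZMod p, x ^ (p - 1) = -1 := by
  have h2 : p - 1 ≠ 0 := by have := hp.out.two_le; omega
  rw [← Finset.add_sum_erase univ _ (mem_univ (0 : ZMod p)), zero_pow h2, zero_add,
    Finset.sum_congr rfl fun x hx => ZMod.pow_card_sub_one_eq_one (Finset.ne_of_mem_erase hx),
    sum_const, card_erase_of_mem (mem_univ _), card_univ, ZMod.card, nsmul_one,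
    Nat.cast_sub hp.out.one_le, ZMod.natCast_self, Nat.cast_one, zero_sub]

theorem sum_pow_low {i : ℕ} (h : i < p - 1) : ∑ x : ZMod p, x ^ i = 0 :=
  FiniteField.sum_pow_lt_card_sub_one _ _ (by rwa [ZMod.card])

/-- The sum of a polynomial of degree at most `p - 1` over the field. -/
theorem sum_eval {P : (ZMod p)[X]} (hP : P.natDegree ≤ p - 1) :
    ∑ x : ZMod p, P.eval x = -P.coeff (p - 1) := by
  simp only [eval_eq_sum_range' (Nat.lt_succ_of_le hP)]
  rw [sum_comm, sum_range_succ, Finset.sum_eq_zero fun i hi => ?_, zero_add, ← mul_sum, sum_pow_top,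
    mul_neg, mul_one]
  rw [← mul_sum, sum_pow_low (Finset.mem_range.1 hi), mul_zero]

theorem moment_zero {f : ZMod p → ZMod p} {i j : ℕ} (hk : i + j ≤ p - 2)
    (hN : i + j + (slopes f).card ≤ p) : ∑ x : ZMod p, x ^ i * f x ^ j = 0 := by
  have h2 := hp.out.two_le
  obtain ⟨k, hkd⟩ : ∃ k, k = i + j := ⟨_, rfl⟩
  obtain ⟨P, hP⟩ : ∃ P : (ZMod p)[X], P = ∑ l ∈ range k,
      C ((k.choose l : ZMod p) * (-1) ^ l * ∑ x : ZMod p, x ^ l * f x ^ (k - l)) * X ^ l := ⟨_, rfl⟩
  have hroot : ∀ m ∈ (slopes f)ᶜ, P.eval m = 0 := fun m hm => by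
    rw [Finset.mem_compl] at hm
    have h1 : ∑ x : ZMod p, (f x - m * x) ^ k = 0 :=
      ((bijective_of_not_mem hm).sum_comp fun x => x ^ k).trans (sum_pow_low (by omega))
    rw [hP, eval_finsetSum]
    simp only [eval_mul, eval_C, eval_pow, eval_X]
    rw [← h1]
    have e : ∀ x : ZMod p, (f x - m * x) ^ k = ∑ l ∈ range (k + 1),
        (k.choose l : ZMod p) * (-1) ^ l * (x ^ l * f x ^ (k - l)) * m ^ l := fun x => by
      rw [sub_eq_add_neg, add_comm, add_pow]
      refine Finset.sum_congr rfl fun l _ => ?_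
      rw [show -(m * x) = (-1) * (m * x) by ring, mul_pow, mul_pow]
      ring
    simp only [e]
    rw [sum_comm, sum_range_succ _ k]
    simp only [← sum_mul, ← mul_sum, Nat.sub_self, pow_zero, mul_one,
      sum_pow_low (show k < p - 1 by omega), mul_zero, zero_mul, add_zero]
  have hdeg : P.natDegree ≤ k - 1 := by
    rw [hP]
    exact natDegree_sum_le_of_forall_le _ _ fun l hl =>
      (natDegree_C_mul_X_pow_le _ _).trans (by have := Finset.mem_range.1 hl; omega)
  have hP0 : P = 0 := by
    rcases Nat.eq_zero_or_pos k with h0 | h0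
    · rw [hP, h0, range_zero, sum_empty]
    · refine eq_zero_of_natDegree_lt_card_of_eval_eq_zero' P _ hroot ?_
      rw [card_compl, ZMod.card]
      omega
  rcases Nat.eq_zero_or_pos j with rfl | hj
  · simp only [pow_zero, mul_one]
    exact sum_pow_low (by omega)
  · have h3 := congrArg (fun Q : (ZMod p)[X] => Q.coeff i) hP0
    simp only [hP, finsetSum_coeff, coeff_C_mul_X_pow, coeff_zero, sum_ite_eq,
      Finset.mem_range, if_pos (show i < k by omega)] at h3
    rw [hkd, Nat.add_sub_cancel_left] at h3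
    refine (mul_eq_zero.1 h3).resolve_left (mul_ne_zero ?_
      (pow_ne_zero _ (neg_ne_zero.2 one_ne_zero)))
    rw [Ne, ZMod.natCast_eq_zero_iff]
    intro hd
    have h4 : p ∣ (i + j).factorial := by
      rw [← Nat.choose_mul_factorial_mul_factorial (Nat.le_add_right i j), mul_assoc]
      exact hd.mul_right _
    exact absurd ((Nat.Prime.dvd_factorial hp.out).1 h4) (by omega)

theorem slopes_card_pos (f : ZMod p → ZMod p) : 0 < (slopes f).card :=
  card_pos.2 ⟨_, mem_slopes.2 ⟨0, 1, zero_ne_one, rfl⟩⟩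

/-- **Rédei and Megyesi**, in terms of functions. -/
theorem affine_of_few {f : ZMod p → ZMod p} (h : 2 * (slopes f).card < p + 3) :
    ∃ a b, ∀ x, f x = a * x + b := by
  have h2 := hp.out.two_le
  have hpos := slopes_card_pos f
  rcases eq_or_ne (slopes f).card 1 with h1 | h1
  · obtain ⟨m, hm⟩ := card_eq_one.1 h1
    refine ⟨m, f 0, fun x => ?_⟩
    rcases eq_or_ne x 0 with rfl | hx
    · ring
    · have := (mem_slopes (f := f)).2 ⟨0, x, Ne.symm hx, rfl⟩
      rw [hm, Finset.mem_singleton, sub_zero, div_eq_iff hx] at this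
      linear_combination this
  obtain ⟨F, hF⟩ : ∃ F, F = Lagrange.interpolate (univ : Finset (ZMod p)) id f := ⟨_, rfl⟩
  have hinj : Set.InjOn (id : ZMod p → ZMod p) (univ : Finset (ZMod p)) := fun x _ y _ h => h
  have hev : ∀ x, F.eval x = f x := fun x => by
    rw [hF]
    exact Lagrange.eval_interpolate_at_node f hinj (mem_univ x)
  have hle1 : F.natDegree ≤ 1 := by
    by_contra hgt
    have hF0 : F ≠ 0 := fun h0 => by simp [h0] at hgt
    have hdp : F.natDegree < p := by
      rw [natDegree_lt_iff_degree_lt hF0, hF]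
      refine (Lagrange.degree_interpolate_lt f hinj).trans_eq ?_
      rw [card_univ, ZMod.card]
    have hlead : ∀ i j, i + j * F.natDegree = p - 1 →
        ∑ x : ZMod p, x ^ i * f x ^ j ≠ 0 := by
      intro i j he
      have hne : (X : (ZMod p)[X]) ^ i * F ^ j ≠ 0 :=
        mul_ne_zero (pow_ne_zero _ X_ne_zero) (pow_ne_zero _ hF0)
      have hd : ((X : (ZMod p)[X]) ^ i * F ^ j).natDegree = p - 1 := by
        rw [natDegree_mul (pow_ne_zero _ X_ne_zero) (pow_ne_zero _ hF0), natDegree_pow,
          natDegree_pow, natDegree_X, mul_one, he]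
      rw [Finset.sum_congr rfl fun x _ =>
        show x ^ i * f x ^ j = ((X : (ZMod p)[X]) ^ i * F ^ j).eval x by
          simp [eval_mul, eval_pow, hev], sum_eval hd.le, neg_ne_zero, ← hd]
      exact leadingCoeff_ne_zero.2 hne
    -- the degree is below the number of slopes
    have hd1 : 2 * F.natDegree ≤ p - 1 := by
      by_contra hbig
      refine hlead (p - 1 - F.natDegree) 1 (by omega) (moment_zero (by omega) ?_)
      have : p % 2 = 1 ∨ p = 2 := hp.out.eq_two_or_odd.symm
      omega
    obtain ⟨q, hq⟩ : ∃ q, q = (p - 1) / F.natDegree := ⟨_, rfl⟩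
    obtain ⟨r, hr⟩ : ∃ r, r = (p - 1) % F.natDegree := ⟨_, rfl⟩
    have he : r + q * F.natDegree = p - 1 := by
      rw [hr, hq, mul_comm]
      exact Nat.mod_add_div _ _
    have hrd : r < F.natDegree := hr ▸ Nat.mod_lt _ (by omega)
    have hodd : p % 2 = 1 ∨ p = 2 := hp.out.eq_two_or_odd.symm
    have hqr : 2 * (r + q) ≤ p - 1 := by
      have hq2 : 2 ≤ q := by
        rw [hq, Nat.le_div_iff_mul_le (by omega)]
        omega
      rcases (show F.natDegree = 2 ∨ 3 ≤ F.natDegree by omega) with h3 | h3
      · rw [h3] at he hrd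
        omega
      · obtain ⟨e, he'⟩ : ∃ e, F.natDegree = e + 3 := ⟨F.natDegree - 3, by omega⟩
        rw [he'] at he hrd
        have : 2 * (e + 1) ≤ q * (e + 1) := Nat.mul_le_mul_right _ hq2
        simp only [Nat.mul_add, mul_one] at this he
        omega
    refine hlead r q he (moment_zero (by omega) ?_)
    omega
  obtain ⟨a, b, hab⟩ := exists_eq_X_add_C_of_natDegree_le_one hle1
  exact ⟨a, b, fun x => by rw [← hev, hab]; simp⟩

theorem two_mul_card_slopes {f : ZMod p → ZMod p} (h : ¬∃ a b, ∀ x, f x = a * x + b) :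
    p + 3 ≤ 2 * (slopes f).card :=
  not_lt.1 fun hlt => h (affine_of_few hlt)

/-- **Niederreiter and Robinson**. -/
theorem affine_of_bijective {f : ZMod p → ZMod p} {S : Finset (ZMod p)}
    (hS : p ≤ 2 * S.card + 1) (h : ∀ c ∈ S, Function.Bijective fun x => f x + c * x) :
    ∃ a b, ∀ x, f x = a * x + b := by
  refine affine_of_few ?_
  have hdisj : Disjoint (slopes f) (S.image fun c => -c) := by
    rw [Finset.disjoint_left]
    intro m hm hm'
    obtain ⟨c, hc, rfl⟩ := Finset.mem_image.1 hm'
    obtain ⟨x, y, hne, he⟩ := mem_slopes.1 hm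
    rw [div_eq_iff (sub_ne_zero.2 (Ne.symm hne))] at he
    exact hne ((h c hc).1 (show f x + c * x = f y + c * y by linear_combination -he))
  have := card_le_univ (slopes f ∪ S.image fun c => -c)
  rw [card_union_of_disjoint hdisj, card_image_of_injective _ neg_injective, ZMod.card] at this
  omega

end FA.RedeiDirections

end
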