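import Fermat.Agent.RedeiDirections.Basic
import Mathlib.Algebra.Polynomial.Taylor
import Mathlib.GroupTheory.Perm.Cycle.Type
import Mathlib.GroupTheory.Solvable
import Mathlib.GroupTheory.GroupAction.Quotient

/-!
# Transitive groups of prime degree

After conjugation the group holds the translations. If it is not doubly transitive it keeps an
orbit `D` of nonzero differences, so it commutes with `P ↦ ∑ (P(X + d) - P(X))`, whose iterated
kernels are the spaces of polynomials of low degree; these confine the degree of a member.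
-/

set_option autoImplicit false

noncomputable section

open Finset Polynomial
open scoped commutatorElement

namespace FA.RedeiDirections

variable {p : ℕ} [hp : Fact p.Prime]

/-- A translation as a permutation. -/
def shift (c : ZMod p) : Equiv.Perm (ZMod p) := Equiv.addRight c

theorem shift_apply (c x : ZMod p) : shift c x = x + c := rfl

/-- The power sum over a set. -/
def moment (D : Finset (ZMod p)) (j : ℕ) : ZMod p := ∑ d ∈ D, d ^ j

/-- The difference operator of a set. -/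
def diffOp (D : Finset (ZMod p)) (P : (ZMod p)[X]) : (ZMod p)[X] := ∑ d ∈ D, (taylor d P - P)

theorem eval_diffOp (D : Finset (ZMod p)) (P : (ZMod p)[X]) (x : ZMod p) :
    (diffOp D P).eval x = ∑ d ∈ D, (P.eval (x + d) - P.eval x) := by
  simp [diffOp, eval_finsetSum, taylor_eval]

theorem coeff_diffOp (D : Finset (ZMod p)) (P : (ZMod p)[X]) (i : ℕ) :
    (diffOp D P).coeff i = ∑ n ∈ range (P.natDegree + 1),
      if i < n then (n.choose i : ZMod p) * moment D (n - i) * P.coeff n else 0 := by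
  have h : ∀ d : ZMod p, (taylor d P - P).coeff i = ∑ n ∈ range (P.natDegree + 1),
      if i < n then (n.choose i : ZMod p) * d ^ (n - i) * P.coeff n else 0 := fun d => by
    conv_lhs => rw [P.as_sum_range_C_mul_X_pow]
    rw [map_sum, ← sum_sub_distrib, finsetSum_coeff]
    refine Finset.sum_congr rfl fun n _ => ?_
    rw [coeff_sub, taylor_mul, taylor_C, taylor_pow, taylor_X, coeff_C_mul, coeff_C_mul,
      coeff_X_add_C_pow, coeff_X_pow]
    rcases lt_trichotomy i n with h | h | h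
    · rw [if_pos h, if_neg h.ne]
      ring
    · subst h
      simp
    · rw [if_neg (lt_asymm h), if_neg h.ne', Nat.choose_eq_zero_of_lt h]
      simp
  rw [diffOp, finsetSum_coeff, Finset.sum_congr rfl fun d _ => h d, sum_comm]
  refine Finset.sum_congr rfl fun n _ => ?_
  split_ifs
  · rw [moment, mul_sum, sum_mul]
  · exact sum_const_zero

theorem choose_ne_zero_of_lt {n i : ℕ} (hn : n < p) (hi : i ≤ n) :
    (n.choose i : ZMod p) ≠ 0 := by
  rw [Ne, ZMod.natCast_eq_zero_iff]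
  intro hd
  have h : p ∣ n.factorial := by
    rw [← Nat.choose_mul_factorial_mul_factorial hi, mul_assoc]
    exact hd.mul_right _
  exact absurd ((Nat.Prime.dvd_factorial hp.out).1 h) (by omega)

variable {D : Finset (ZMod p)} {j₀ : ℕ}

theorem diffOp_eq_zero (hzero : ∀ j, 1 ≤ j → j < j₀ → moment D j = 0) {P : (ZMod p)[X]}
    (hP : P.natDegree < j₀) : diffOp D P = 0 := by
  ext i
  rw [coeff_diffOp, coeff_zero]
  refine Finset.sum_eq_zero fun n hn => ?_
  split_ifs with h
  · have := Finset.mem_range.1 hn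
    rw [hzero (n - i) (by omega) (by omega), mul_zero, zero_mul]
  · rfl

theorem coeff_diffOp_top (hzero : ∀ j, 1 ≤ j → j < j₀ → moment D j = 0) (hne : moment D j₀ ≠ 0)
    {P : (ZMod p)[X]} (hP : P.natDegree < p) (hj : 1 ≤ j₀) (hj' : j₀ ≤ P.natDegree) :
    (diffOp D P).coeff (P.natDegree - j₀) ≠ 0 := by
  rw [coeff_diffOp, sum_eq_single P.natDegree (fun n hn hn' => ?_)
    (fun h => absurd (Finset.mem_range.2 (Nat.lt_succ_self _)) h)]
  · rw [if_pos (by omega), show P.natDegree - (P.natDegree - j₀) = j₀ by omega]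
    refine mul_ne_zero (mul_ne_zero (choose_ne_zero_of_lt hP (Nat.sub_le _ _)) hne) ?_
    exact leadingCoeff_ne_zero.2 fun h0 => by simp [h0] at hj'; omega
  · split_ifs with h
    · have := Finset.mem_range.1 hn
      rw [hzero (n - (P.natDegree - j₀)) (by omega) (by omega), mul_zero, zero_mul]
    · rfl

theorem natDegree_diffOp (D : Finset (ZMod p)) (P : (ZMod p)[X]) :
    (diffOp D P).natDegree ≤ P.natDegree - 1 := by
  rw [natDegree_le_iff_coeff_eq_zero]
  intro i hi
  rw [coeff_diffOp]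
  refine Finset.sum_eq_zero fun n hn => if_neg ?_
  have := Finset.mem_range.1 hn
  omega

/-- The polynomial of degree below `p` of a function. -/
theorem exists_poly (f : ZMod p → ZMod p) :
    ∃ P : (ZMod p)[X], P.natDegree < p ∧ ∀ x, P.eval x = f x := by
  refine ⟨Lagrange.interpolate (univ : Finset (ZMod p)) id f, ?_, fun x =>
    Lagrange.eval_interpolate_at_node f (fun x _ y _ h => h) (mem_univ x)⟩
  rcases eq_or_ne (Lagrange.interpolate (univ : Finset (ZMod p)) id f) 0 with h | h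
  · rw [h, natDegree_zero]
    exact hp.out.pos
  · rw [natDegree_lt_iff_degree_lt h]
    refine (Lagrange.degree_interpolate_lt f fun x _ y _ h => h).trans_eq ?_
    rw [card_univ, ZMod.card]

theorem eq_zero_of_eval {P : (ZMod p)[X]} (hP : P.natDegree < p) (h : ∀ x, P.eval x = 0) : P = 0 :=
  eq_zero_of_natDegree_lt_card_of_eval_eq_zero' P univ (fun x _ => h x)
    (by rwa [card_univ, ZMod.card])

theorem exists_moment_ne_zero (hD : D.Nonempty) (h0 : (0 : ZMod p) ∉ D) :
    ∃ j, 1 ≤ j ∧ j ≤ D.card ∧ moment D j ≠ 0 := by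
  by_contra hnone
  push Not at hnone
  obtain ⟨d₀, hd₀⟩ := hD
  obtain ⟨Q, hQ⟩ : ∃ Q : (ZMod p)[X], Q = ∏ d ∈ D.erase d₀, (X - C d) := ⟨_, rfl⟩
  have hdeg : Q.natDegree < D.card := by
    rw [hQ, natDegree_prod _ _ fun d _ => X_sub_C_ne_zero d]
    simp only [natDegree_X_sub_C, sum_const, smul_eq_mul, mul_one]
    exact card_erase_lt_of_mem hd₀
  have hsum : ∑ d ∈ D, d * Q.eval d = 0 := by
    simp only [eval_eq_sum_range, mul_sum]
    rw [sum_comm]
    refine Finset.sum_eq_zero fun i hi => ?_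
    have h1 := hnone (i + 1) (by omega) (by have := Finset.mem_range.1 hi; omega)
    rw [moment] at h1
    rw [Finset.sum_congr rfl fun d _ => show d * (Q.coeff i * d ^ i) = Q.coeff i * d ^ (i + 1) by
      ring, ← mul_sum, h1, mul_zero]
  rw [sum_eq_single d₀ (fun d hd hne => by
    rw [hQ, eval_prod, prod_eq_zero (mem_erase.2 ⟨hne, hd⟩) (by simp), mul_zero])
    (fun h => absurd hd₀ h), hQ, eval_prod, mul_eq_zero] at hsum
  rcases hsum with h | h
  · exact h0 (h ▸ hd₀)
  · obtain ⟨d, hd, he⟩ := prod_eq_zero_iff.1 h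
    rw [eval_sub, eval_X, eval_C, sub_eq_zero] at he
    exact (Finset.ne_of_mem_erase hd) he.symm

/-- A permutation that preserves a small set of differences is affine. -/
theorem affine_of_preserved (hD : D.Nonempty) (h0 : (0 : ZMod p) ∉ D) (hsmall : 2 * D.card + 1 ≤ p)
    {g : Equiv.Perm (ZMod p)} (hg : ∀ x y, g y - g x ∈ D ↔ y - x ∈ D) :
    ∃ a b, ∀ x, g x = a * x + b := by
  classical
  have hex : ∃ j, 1 ≤ j ∧ moment D j ≠ 0 := by
    obtain ⟨j, h1, -, h3⟩ := exists_moment_ne_zero hD h0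
    exact ⟨j, h1, h3⟩
  obtain ⟨j₀, hj₀⟩ : ∃ j₀, j₀ = Nat.find hex := ⟨_, rfl⟩
  obtain ⟨hj1, hne⟩ := hj₀ ▸ Nat.find_spec hex
  have hjD : j₀ ≤ D.card := by
    obtain ⟨j, h1, h2, h3⟩ := exists_moment_ne_zero hD h0
    exact hj₀ ▸ (Nat.find_min' hex ⟨h1, h3⟩).trans h2
  have hzero : ∀ j, 1 ≤ j → j < j₀ → moment D j = 0 := fun j h1 h2 =>
    by_contra fun h3 => Nat.find_min hex (hj₀ ▸ h2) ⟨h1, h3⟩
  obtain ⟨F, hFd, hF⟩ := exists_poly fun x => g x
  have hcomm : ∀ H K : (ZMod p)[X], (∀ x, K.eval x = H.eval (g x)) →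
      ∀ x, (diffOp D K).eval x = (diffOp D H).eval (g x) := fun H K hK x => by
    rw [eval_diffOp, eval_diffOp]
    refine Finset.sum_nbij' (fun d => g (x + d) - g x) (fun d => g.symm (g x + d) - x)
      (fun d hd => ?_) (fun d hd => ?_) (fun d _ => ?_) (fun d _ => ?_) (fun d _ => ?_)
    · exact (hg x (x + d)).2 (by rwa [add_sub_cancel_left])
    · refine (hg x _).1 ?_
      rwa [Equiv.apply_symm_apply, add_sub_cancel_left]
    · simp
    · simp
    · rw [hK, hK, add_sub_cancel]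
  obtain ⟨k, hk1, hk2, hinv⟩ : ∃ k, 1 ≤ k ∧ 2 * k + 1 ≤ p ∧ ∀ H K : (ZMod p)[X],
      H.natDegree ≤ k → K.natDegree < p → (∀ x, K.eval x = H.eval (g x)) → K.natDegree ≤ k := by
    rcases (show j₀ = 1 ∨ 2 ≤ j₀ by omega) with h | h
    · refine ⟨1, le_rfl, by omega, fun H K hH hK he => by_contra fun hgt => ?_⟩
      have h1 : (diffOp D H).natDegree < j₀ := by
        have := natDegree_diffOp D H
        omega
      have h2 : ∀ x, (diffOp D (diffOp D K)).eval x = 0 := fun x => by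
        rw [hcomm _ _ (hcomm H K he), diffOp_eq_zero hzero h1, eval_zero]
      have hKd := natDegree_diffOp D K
      have h3 : 1 ≤ (diffOp D K).natDegree := by
        refine le_trans (by omega) (le_natDegree_of_ne_zero (coeff_diffOp_top hzero hne hK hj1
          (by omega)))
      have h4 := coeff_diffOp_top hzero hne (P := diffOp D K) (by omega) hj1 (by omega)
      refine h4 ?_
      rw [eq_zero_of_eval ((natDegree_diffOp D _).trans_lt (by omega)) h2, coeff_zero]
    · refine ⟨j₀ - 1, by omega, by omega, fun H K hH hK he => by_contra fun hgt => ?_⟩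
      have h2 : ∀ x, (diffOp D K).eval x = 0 := fun x => by
        rw [hcomm H K he, diffOp_eq_zero hzero (by omega), eval_zero]
      refine coeff_diffOp_top hzero hne hK hj1 (by omega) ?_
      rw [eq_zero_of_eval ((natDegree_diffOp D K).trans_lt (by omega)) h2, coeff_zero]
  have hpow : ∀ i, i ≤ k → i * F.natDegree < p → i * F.natDegree ≤ k := fun i hi hip => by
    rw [← natDegree_pow F i] at hip ⊢
    exact hinv (X ^ i) _ (by simpa using hi) hip (fun x => by simp [eval_pow, hF])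
  have hle1 : F.natDegree ≤ 1 := by
    by_contra hn
    have h1 := hpow 1 hk1 (by omega)
    obtain ⟨i, hi⟩ : ∃ i, i = k / F.natDegree + 1 := ⟨_, rfl⟩
    have h2 := Nat.div_add_mod k F.natDegree
    have h3 := Nat.mod_lt k (show F.natDegree > 0 by omega)
    have h4 : k / F.natDegree ≤ k / 2 := Nat.div_le_div_left (by omega) two_pos
    have e : i * F.natDegree = F.natDegree * (k / F.natDegree) + F.natDegree := by
      rw [hi]
      ring
    have h5 := hpow i (by omega) (by omega)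
    omega
  obtain ⟨a, b, hab⟩ := exists_eq_X_add_C_of_natDegree_le_one hle1
  exact ⟨a, b, fun x => by rw [← hF, hab]; simp⟩

theorem affine_of_shift_mem {G : Subgroup (Equiv.Perm (ZMod p))} (hT : ∀ c, shift c ∈ G)
    {a₀ b₀ c₀ d₀ : ZMod p} (hab : a₀ ≠ b₀) (hcd : c₀ ≠ d₀)
    (hnot : ∀ g ∈ G, ¬(g a₀ = c₀ ∧ g b₀ = d₀)) {g : Equiv.Perm (ZMod p)} (hg : g ∈ G) :
    ∃ a b, ∀ x, g x = a * x + b := by
  classical
  obtain ⟨O, hO⟩ : ∃ O : Set (ZMod p),
      O = {d | ∃ h ∈ G, h 0 = 0 ∧ h (b₀ - a₀) = d} := ⟨_, rfl⟩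
  have hinv : ∀ {g : Equiv.Perm (ZMod p)}, g ∈ G → ∀ x y, y - x ∈ O → g y - g x ∈ O := by
    intro g hg x y hxy
    rw [hO] at hxy ⊢
    obtain ⟨h, hh, h0, hd⟩ := hxy
    refine ⟨shift (-(g x)) * g * shift x * h, G.mul_mem (G.mul_mem (G.mul_mem (hT _) hg) (hT _)) hh,
      ?_, ?_⟩
    · simp [shift_apply, h0]
    · simp [shift_apply, hd, ← sub_eq_add_neg]
  have hiff : ∀ x y, g y - g x ∈ O ↔ y - x ∈ O := fun x y =>
    ⟨fun h => by simpa using hinv (G.inv_mem hg) _ _ h, hinv hg x y⟩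
  have hd₀ : b₀ - a₀ ∈ O := by
    rw [hO]
    exact ⟨1, G.one_mem, rfl, rfl⟩
  have he₀ : d₀ - c₀ ∉ O := by
    rw [hO]
    rintro ⟨h, hh, h0, hd⟩
    refine hnot (shift c₀ * h * shift (-a₀))
      (G.mul_mem (G.mul_mem (hT _) hh) (hT _)) ⟨?_, ?_⟩
    · simp [shift_apply, h0]
    · simp [shift_apply, ← sub_eq_add_neg, hd]
  have hO0 : (0 : ZMod p) ∉ O := by
    rw [hO]
    rintro ⟨h, -, h1, h2⟩
    exact hab (sub_eq_zero.1 (h.injective (h2.trans h1.symm))).symm
  obtain ⟨D, hD⟩ : ∃ D : Finset (ZMod p), D = univ.filter (· ∈ O) := ⟨_, rfl⟩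
  obtain ⟨E, hE⟩ : ∃ E : Finset (ZMod p), E = univ.filter fun e => e ≠ 0 ∧ e ∉ O := ⟨_, rfl⟩
  have hsum : D.card + E.card + 1 ≤ p := by
    have hd1 : Disjoint D E := by
      rw [Finset.disjoint_left, hD, hE]
      intro x hx hx'
      exact (Finset.mem_filter.1 hx').2.2 (Finset.mem_filter.1 hx).2
    have h1 : D ∪ E ⊆ univ.erase 0 := fun x hx => by
      rw [mem_erase]
      refine ⟨fun h0 => ?_, mem_univ x⟩
      subst h0
      simp [hD, hE, hO0] at hx
    have h2 := card_le_card h1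
    rw [card_union_of_disjoint hd1, card_erase_of_mem (mem_univ _), card_univ, ZMod.card] at h2
    have := hp.out.two_le
    omega
  rcases le_total D.card E.card with hle | hle
  · refine affine_of_preserved (D := D) ⟨b₀ - a₀, ?_⟩ ?_ (by omega) fun x y => ?_
    · exact hD ▸ Finset.mem_filter.2 ⟨mem_univ _, hd₀⟩
    · simp [hD, hO0]
    · simp [hD, hiff]
  · refine affine_of_preserved (D := E) ⟨d₀ - c₀, ?_⟩ ?_ (by omega) fun x y => ?_
    · exact hE ▸ Finset.mem_filter.2 ⟨mem_univ _, sub_ne_zero.2 hcd.symm, he₀⟩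
    · simp [hE]
    · simp [hE, hiff, sub_ne_zero, g.injective.eq_iff]

theorem exists_order_p {G : Subgroup (Equiv.Perm (ZMod p))} (htrans : ∀ x y, ∃ g ∈ G, g x = y) :
    ∃ σ ∈ G, orderOf σ = p := by
  classical
  have horb : Nat.card (MulAction.orbit G (0 : ZMod p)) = p := by
    have : MulAction.orbit G (0 : ZMod p) = Set.univ := Set.eq_univ_iff_forall.2 fun y => by
      obtain ⟨g, hg, hgy⟩ := htrans 0 y
      exact ⟨⟨g, hg⟩, hgy⟩
    rw [this, Nat.card_univ, Nat.card_zmod]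
  have hdvd : p ∣ Nat.card G := by
    suffices h : Nat.card (MulAction.orbit G (0 : ZMod p)) ∣ Nat.card G by rwa [horb] at h
    rw [Nat.card_congr (MulAction.orbitEquivQuotientStabilizer G (0 : ZMod p))]
    exact Subgroup.card_quotient_dvd_card _
  obtain ⟨σ, hσ⟩ := exists_prime_orderOf_dvd_card' (G := G) p hdvd
  exact ⟨σ, σ.2, by rw [Subgroup.orderOf_coe, hσ]⟩

/-- An element of order `p` is a translation in suitable coordinates. -/
theorem exists_coordinates {σ : Equiv.Perm (ZMod p)} (hσ : orderOf σ = p) :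
    ∃ e : Equiv.Perm (ZMod p), ∀ c, e.symm * σ ^ c.val * e = shift c := by
  have hcyc : σ.IsCycle := Equiv.Perm.isCycle_of_prime_order (by rw [hσ]; exact hp.out) (by
    rw [hσ]
    refine lt_of_le_of_lt (Finset.card_le_univ _) ?_
    rw [ZMod.card]
    have := hp.out.pos
    omega)
  have hsupp : σ.support = univ := eq_univ_of_card _ (by rw [← hcyc.orderOf, hσ, ZMod.card])
  have hsurj : Function.Surjective fun c : ZMod p => (σ ^ c.val) 0 := fun y => by
    obtain ⟨i, hi⟩ := hcyc.exists_pow_eq (x := (0 : ZMod p)) (y := y)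
      (Equiv.Perm.mem_support.1 (hsupp ▸ mem_univ _))
        (Equiv.Perm.mem_support.1 (hsupp ▸ mem_univ _))
    refine ⟨(i : ZMod p), ?_⟩
    show (σ ^ (i : ZMod p).val) 0 = y
    have h1 := pow_mod_orderOf σ i
    rw [hσ] at h1
    rw [ZMod.val_natCast, h1, hi]
  refine ⟨Equiv.ofBijective _ (Finite.surjective_iff_bijective.1 hsurj), fun c => ?_⟩
  refine Equiv.ext fun x => ?_
  simp only [Equiv.Perm.mul_apply, shift_apply]
  rw [Equiv.symm_apply_eq]
  simp only [Equiv.ofBijective_apply]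
  rw [← Equiv.Perm.mul_apply, ← pow_add, ZMod.val_add, add_comm x.val, ← pow_mod_orderOf σ, hσ]

/-- **Burnside's theorem on groups of prime degree.** -/
theorem burnside_prime_degree {G : Subgroup (Equiv.Perm (ZMod p))}
    (htrans : ∀ x y, ∃ g ∈ G, g x = y) :
    (∀ a b c d, a ≠ b → c ≠ d → ∃ g ∈ G, g a = c ∧ g b = d) ∨
      ∃ e : Equiv.Perm (ZMod p), ∀ g ∈ G, ∃ a b, ∀ x, e.symm (g (e x)) = a * x + b := by
  refine or_iff_not_imp_left.2 fun hnot => ?_
  push Not at hnot
  obtain ⟨a₀, b₀, c₀, d₀, hab, hcd, hno⟩ := hnot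
  obtain ⟨σ, hσG, hσ⟩ := exists_order_p htrans
  obtain ⟨e, he⟩ := exists_coordinates hσ
  obtain ⟨H, hH⟩ : ∃ H : Subgroup (Equiv.Perm (ZMod p)),
      H = G.map (MulAut.conj e⁻¹).toMonoidHom := ⟨_, rfl⟩
  refine ⟨e, fun g hg => ?_⟩
  have hmem : ∀ g ∈ G, e⁻¹ * g * e ∈ H := fun g hg => hH ▸ ⟨g, hg, by simp⟩
  refine affine_of_shift_mem (G := H) (fun c => ?_) (a₀ := e.symm a₀) (b₀ := e.symm b₀)
    (c₀ := e.symm c₀) (d₀ := e.symm d₀) (e.symm.injective.ne hab) (e.symm.injective.ne hcd)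
    (fun h hh => ?_) (hmem g hg)
  · rw [← he c]
    exact hmem _ (G.pow_mem hσG _)
  · rw [hH] at hh
    obtain ⟨g', hg', rfl⟩ := hh
    rintro ⟨h1, h2⟩
    simp at h1 h2
    exact (hno g' hg' h1) h2

/-- **Galois**: solvable transitive groups of prime degree are affine. -/
theorem galois_prime_degree {G : Subgroup (Equiv.Perm (ZMod p))}
    (htrans : ∀ x y, ∃ g ∈ G, g x = y) [Group.IsSolvable G] :
    ∃ e : Equiv.Perm (ZMod p), ∀ g ∈ G, ∃ a b, ∀ x, e.symm (g (e x)) = a * x + b := by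
  classical
  have hex : ∃ n, derivedSeries G n = ⊥ := Group.IsSolvable.solvable
  have hGne : (⊤ : Subgroup G) ≠ ⊥ := fun h => by
    obtain ⟨g, hg, hg1⟩ := htrans 0 1
    have h1 : (⟨g, hg⟩ : G) ∈ (⊥ : Subgroup G) := h ▸ Subgroup.mem_top _
    rw [Subgroup.mem_bot, Subtype.ext_iff] at h1
    rw [show g = 1 from h1, Equiv.Perm.one_apply] at hg1
    exact zero_ne_one hg1
  obtain ⟨m, hm⟩ : ∃ m, Nat.find hex = m + 1 := by
    refine ⟨Nat.find hex - 1, ?_⟩
    have : Nat.find hex ≠ 0 := fun h => hGne (by simpa [h] using Nat.find_spec hex)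
    omega
  obtain ⟨A, hA⟩ : ∃ A : Subgroup G, A = derivedSeries G m := ⟨_, rfl⟩
  have hAne : A ≠ ⊥ := hA ▸ Nat.find_min hex (by omega)
  have hnorm : A.Normal := hA ▸ derivedSeries_normal G m
  have hcomm : ∀ a ∈ A, ∀ b ∈ A, a * b = b * a := fun a ha b hb => by
    have h1 : ⁅a, b⁆ ∈ (⊥ : Subgroup G) := by
      rw [← Nat.find_spec hex, hm, derivedSeries_succ, ← hA]
      exact Subgroup.commutator_mem_commutator ha hb
    rwa [Subgroup.mem_bot, commutatorElement_eq_one_iff_mul_comm] at h1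
  -- the orbits of `A` all have the same size
  obtain ⟨cls, hcls⟩ : ∃ cls : ZMod p → Finset (ZMod p),
      cls = fun x => univ.filter fun y => ∃ a ∈ A, (a : G).1 x = y := ⟨_, rfl⟩
  have hmem : ∀ x y, y ∈ cls x ↔ ∃ a ∈ A, (a : G).1 x = y := fun x y => by simp [hcls]
  have hsame : ∀ x y, y ∈ cls x → cls y = cls x := fun x y hy => by
    obtain ⟨a, ha, rfl⟩ := (hmem x y).1 hy
    ext z
    rw [hmem, hmem]
    constructor
    · rintro ⟨b, hb, rfl⟩
      exact ⟨b * a, A.mul_mem hb ha, rfl⟩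
    · rintro ⟨b, hb, rfl⟩
      exact ⟨b * a⁻¹, A.mul_mem hb (A.inv_mem ha), by simp⟩
  have hcard : ∀ x y, (cls x).card ≤ (cls y).card := fun x y => by
    obtain ⟨g, hg, hgxy⟩ := htrans x y
    refine card_le_card_of_injOn g (fun z hz => ?_) (g.injective.injOn)
    obtain ⟨a, ha, rfl⟩ := (hmem x z).1 hz
    refine (hmem y _).2 ⟨⟨g, hg⟩ * a * ⟨g, hg⟩⁻¹, hnorm.conj_mem a ha _, ?_⟩
    simp [← hgxy]
  have hone : (cls 0).card = p := by
    have h1 : (univ : Finset (ZMod p)).card =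
        ∑ C ∈ univ.image cls, ((univ : Finset (ZMod p)).filter fun x => cls x = C).card :=
      card_eq_sum_card_image cls univ
    rw [Finset.sum_congr rfl fun C hC => show _ = (cls 0).card from ?_, sum_const, smul_eq_mul,
      card_univ, ZMod.card] at h1
    · rcases hp.out.eq_one_or_self_of_dvd _ ⟨_, h1.trans (mul_comm _ _)⟩ with h2 | h2
      · obtain ⟨a, ha, hane⟩ := A.bot_or_exists_ne_one.resolve_left hAne
        exfalso
        refine hane (Subtype.ext (Equiv.ext fun x => ?_))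
        have h3 : (cls x).card ≤ 1 := h2 ▸ hcard x 0
        exact Finset.card_le_one.1 h3 _ ((hmem x _).2 ⟨a, ha, rfl⟩) _
          ((hmem x x).2 ⟨1, A.one_mem, rfl⟩)
      · exact h2
    · obtain ⟨x, -, rfl⟩ := Finset.mem_image.1 hC
      rw [show (univ.filter fun z => cls z = cls x) = cls x from ?_]
      · exact le_antisymm (hcard x 0) (hcard 0 x)
      · ext z
        rw [Finset.mem_filter, and_iff_right (mem_univ z)]
        exact ⟨fun h => h ▸ (hmem z z).2 ⟨1, A.one_mem, rfl⟩, hsame x z⟩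
  have htransA : ∀ x y, ∃ a ∈ A, (a : G).1 x = y := fun x y => by
    have h1 : cls x = univ := eq_univ_of_card _ (by
      rw [ZMod.card]
      exact le_antisymm ((hcard x 0).trans_eq hone) (hone.symm.trans_le (hcard 0 x)))
    exact (hmem x y).1 (h1 ▸ mem_univ y)
  obtain ⟨A', hA'⟩ : ∃ A' : Subgroup (Equiv.Perm (ZMod p)), A' = A.map G.subtype := ⟨_, rfl⟩
  obtain ⟨σ, hσA, hσ⟩ := exists_order_p (G := A') fun x y => by
    obtain ⟨a, ha, hay⟩ := htransA x y
    exact ⟨_, hA' ▸ ⟨a, ha, rfl⟩, hay⟩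
  rw [hA'] at hσA
  obtain ⟨s, hs, rfl⟩ := hσA
  obtain ⟨e, he⟩ := exists_coordinates hσ
  refine ⟨e, fun g hg => ?_⟩
  -- a member of `A` is fixed by its value at one point
  have hshift : ∀ a ∈ A, ∃ c, e.symm * (a : G).1 * e = shift c := fun a ha => by
    obtain ⟨c, hc⟩ : ∃ c, c = e.symm ((a : G).1 (e 0)) := ⟨_, rfl⟩
    refine ⟨c, ?_⟩
    rw [← he c]
    refine Equiv.ext fun x => ?_
    simp only [Equiv.Perm.mul_apply]
    refine congrArg e.symm ?_
    have h0 : (a : G).1 (e 0) = ((s : G).1 ^ c.val) (e 0) := by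
      have := congrArg (fun f : Equiv.Perm (ZMod p) => e (f 0)) (he c)
      simp [shift_apply] at this
      rw [this, hc, Equiv.apply_symm_apply]
    obtain ⟨b, hb, hbx⟩ := htransA (e 0) (e x)
    have h1 : (a : G).1 * (b : G).1 = (b : G).1 * (a : G).1 :=
      congrArg Subtype.val (hcomm a ha b hb)
    have h2 : ((s : G).1 ^ c.val) * (b : G).1 = (b : G).1 * ((s : G).1 ^ c.val) :=
      congrArg Subtype.val (hcomm (s ^ c.val) (A.pow_mem hs _) b hb)
    simp only [Subgroup.coe_subtype] at h0 ⊢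
    rw [← hbx, ← Equiv.Perm.mul_apply, h1, ← Equiv.Perm.mul_apply _ (b : G).1, h2,
      Equiv.Perm.mul_apply, Equiv.Perm.mul_apply, h0]
  obtain ⟨c, hc⟩ := hshift _ (hnorm.conj_mem (s ^ (1 : ZMod p).val) (A.pow_mem hs _) ⟨g, hg⟩)
  obtain ⟨h, hh⟩ : ∃ h : Equiv.Perm (ZMod p), h = e.symm * g * e := ⟨_, rfl⟩
  have hrel : h * shift 1 = shift c * h := by
    rw [← hc, ← he 1, hh]
    refine Equiv.ext fun x => ?_
    simp
  have hlin : ∀ i : ℕ, h (i : ZMod p) = c * i + h 0 := fun i => by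
    induction i with
    | zero => simp
    | succ i ih =>
      have := congrArg (fun f : Equiv.Perm (ZMod p) => f (i : ZMod p)) hrel
      simp [shift_apply] at this
      push_cast
      rw [this, ih]
      ring
  refine ⟨c, h 0, fun x => ?_⟩
  have := hlin x.val
  rw [ZMod.natCast_zmod_val] at this
  rw [← this, hh]
  rfl

end FA.RedeiDirections

end
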