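import Fermat.Agent.RedeiDirections.Basic
import Mathlib.NumberTheory.LegendreSymbol.Basic

/-!
# Directions determined by points of the plane

`none` is the vertical direction. When some slope is missed, a linear change of coordinates makes
the set the graph of a function. The power `(p + 1) / 2` gives the smallest possible number.
-/

set_option autoImplicit false

noncomputable section

open Finset Polynomial

namespace FA.RedeiDirections

variable {p : ℕ} [hp : Fact p.Prime]

/-- The direction of the line through two points. -/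
def direction (P Q : ZMod p × ZMod p) : Option (ZMod p) :=
  if P.1 = Q.1 then none else some ((Q.2 - P.2) / (Q.1 - P.1))

/-- The directions determined by a set of points. -/
def directions (U : Finset (ZMod p × ZMod p)) : Finset (Option (ZMod p)) :=
  ((U ×ˢ U).filter fun q => q.1 ≠ q.2).image fun q => direction q.1 q.2

theorem mem_directions {U : Finset (ZMod p × ZMod p)} {d : Option (ZMod p)} :
    d ∈ directions U ↔ ∃ P ∈ U, ∃ Q ∈ U, P ≠ Q ∧ direction P Q = d := by
  simp [directions]
  grind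

/-- A set with one point on each vertical line. -/
theorem two_mul_card_directions_of_injOn {U : Finset (ZMod p × ZMod p)} (hU : U.card = p)
    (hinj : Set.InjOn Prod.fst (U : Set (ZMod p × ZMod p)))
    (hline : ¬∃ a b, ∀ P ∈ U, P.2 = a * P.1 + b) : p + 3 ≤ 2 * (directions U).card := by
  have himg : U.image Prod.fst = univ :=
    eq_univ_of_card _ (by rw [card_image_of_injOn hinj, hU, ZMod.card])
  have hex : ∀ x, ∃ y, (x, y) ∈ U := fun x => by
    obtain ⟨P, hP, rfl⟩ := Finset.mem_image.1 (himg ▸ mem_univ x)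
    exact ⟨P.2, hP⟩
  choose f hf using hex
  have hU' : ∀ P ∈ U, P.2 = f P.1 := fun P hP =>
    congrArg Prod.snd (hinj hP (hf P.1) rfl : P = (P.1, f P.1))
  refine (two_mul_card_slopes (f := f) fun ⟨a, b, hab⟩ =>
    hline ⟨a, b, fun P hP => (hU' P hP).trans (hab _)⟩).trans (Nat.mul_le_mul_left 2 ?_)
  refine card_le_card_of_injOn some (fun m hm => ?_) fun m _ m' _ h => Option.some.inj h
  obtain ⟨x, y, hne, he⟩ := mem_slopes.1 hm
  exact mem_directions.2 ⟨_, hf x, _, hf y, fun h => hne (congrArg Prod.fst h),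
    by rw [direction, if_neg hne, he]⟩

/-- **Rédei and Megyesi**: `p` points not on a line determine at least `(p + 3) / 2`
directions. -/
theorem two_mul_card_directions {U : Finset (ZMod p × ZMod p)} (hU : U.card = p)
    (hline : ¬∃ u v w, (u ≠ 0 ∨ v ≠ 0) ∧ ∀ P ∈ U, u * P.1 + v * P.2 = w) :
    p + 3 ≤ 2 * (directions U).card := by
  by_cases hv : none ∈ directions U
  swap
  · refine two_mul_card_directions_of_injOn hU (fun P hP Q hQ h => by_contra fun hne => ?_) ?_
    · exact hv (mem_directions.2 ⟨P, hP, Q, hQ, hne, if_pos h⟩)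
    · rintro ⟨a, b, hab⟩
      exact hline ⟨a, -1, -b, Or.inr (by simp), fun P hP => by rw [hab P hP]; ring⟩
  by_cases hall : ∀ m, some m ∈ directions U
  · have : directions U = univ := eq_univ_iff_forall.2 fun d => by
      cases d with
      | none => exact hv
      | some m => exact hall m
    rw [this, card_univ, Fintype.card_option, ZMod.card]
    have := hp.out.two_le
    omega
  push Not at hall
  obtain ⟨m, hm⟩ := hall
  obtain ⟨T, hT⟩ : ∃ T : ZMod p × ZMod p → ZMod p × ZMod p,
      T = fun (P : ZMod p × ZMod p) => (P.2 - m * P.1, P.1) := ⟨_, rfl⟩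
  have hTinj : Function.Injective T := fun P Q h => by
    simp only [hT, Prod.ext_iff] at h
    obtain ⟨h1, h2⟩ := h
    rw [h2] at h1
    exact Prod.ext h2 (by linear_combination h1)
  have hcard : (U.image T).card = p := by rw [card_image_of_injective _ hTinj, hU]
  have hinj : Set.InjOn Prod.fst ((U.image T : Finset _) : Set (ZMod p × ZMod p)) := by
    intro P hP Q hQ h
    obtain ⟨P, hP', rfl⟩ := Finset.mem_image.1 hP
    obtain ⟨Q, hQ', rfl⟩ := Finset.mem_image.1 hQ
    by_contra hne
    have hPQ : P ≠ Q := fun h' => hne (h' ▸ rfl)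
    simp only [hT] at h
    refine hm (mem_directions.2 ⟨P, hP', Q, hQ', hPQ, ?_⟩)
    have h1 : P.1 ≠ Q.1 := fun h1 => hPQ (Prod.ext h1 (by
      rw [h1] at h
      linear_combination h))
    rw [direction, if_neg h1, Option.some_inj, div_eq_iff (sub_ne_zero.2 h1.symm)]
    linear_combination -h
  have hline' : ¬∃ a b, ∀ P ∈ U.image T, P.2 = a * P.1 + b := by
    rintro ⟨a, b, hab⟩
    refine hline ⟨1 + a * m, -a, b, ?_, fun P hP => ?_⟩
    · by_cases ha : a = 0
      · exact Or.inl (by simp [ha])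
      · exact Or.inr (neg_ne_zero.2 ha)
    · have h1 := hab _ (Finset.mem_image_of_mem T hP)
      simp only [hT] at h1
      linear_combination h1
  refine (two_mul_card_directions_of_injOn hcard hinj hline').trans (Nat.mul_le_mul_left 2 ?_)
  obtain ⟨ψ, hψ⟩ : ∃ ψ : Option (ZMod p) → Option (ZMod p), ψ = fun d =>
      d.elim (some 0) fun s => if s = m then none else some (1 / (s - m)) := ⟨_, rfl⟩
  refine (card_le_card fun d hd => ?_).trans (card_image_le (f := ψ) (s := directions U))
  obtain ⟨P', hP', Q', hQ', hne, rfl⟩ := mem_directions.1 hd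
  obtain ⟨P, hP, rfl⟩ := Finset.mem_image.1 hP'
  obtain ⟨Q, hQ, rfl⟩ := Finset.mem_image.1 hQ'
  have hPQ : P ≠ Q := fun h => hne (h ▸ rfl)
  refine Finset.mem_image.2 ⟨_, mem_directions.2 ⟨P, hP, Q, hQ, hPQ, rfl⟩, ?_⟩
  simp only [hT, direction]
  by_cases h1 : P.1 = Q.1
  · have h2 : P.2 - m * P.1 ≠ Q.2 - m * Q.1 := fun h => hne (by
      simp only [hT, Prod.ext_iff]
      exact ⟨h, h1⟩)
    rw [if_pos h1, if_neg h2, hψ]
    simp [h1]
  · have hd0 : Q.1 - P.1 ≠ 0 := sub_ne_zero.2 (Ne.symm h1)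
    have hsm : (Q.2 - P.2) / (Q.1 - P.1) - m =
        (Q.2 - m * Q.1 - (P.2 - m * P.1)) / (Q.1 - P.1) := by
      rw [sub_eq_iff_eq_add, div_add' _ _ _ hd0]
      congr 1
      ring
    rw [if_neg h1, hψ]
    simp only [Option.elim_some]
    by_cases h2 : P.2 - m * P.1 = Q.2 - m * Q.1
    · rw [if_pos h2, if_pos]
      rw [← sub_eq_zero, hsm, h2, sub_self, zero_div]
    · have h3 : (Q.2 - P.2) / (Q.1 - P.1) ≠ m := fun h => by
        rw [← sub_eq_zero, hsm, div_eq_zero_iff, sub_eq_zero] at h
        exact h.elim (fun h => h2 h.symm) hd0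
      rw [if_neg h2, if_neg h3, hsm, one_div_div]

theorem pow_half_eq (hp2 : p ≠ 2) {x : ZMod p} (hx : x ≠ 0) :
    x ^ ((p - 1) / 2) = 1 ∨ x ^ ((p - 1) / 2) = -1 := by
  have : p / 2 = (p - 1) / 2 := by
    have := hp.out.eq_two_or_odd.resolve_left hp2
    omega
  exact this ▸ ZMod.pow_div_two_eq_neg_one_or_one p hx

theorem card_nonsquares_le (hp2 : p ≠ 2) :
    (univ.filter fun t : ZMod p => t ^ ((p - 1) / 2) = -1).card ≤ (p - 1) / 2 := by
  have hd : 0 < (p - 1) / 2 := by
    have := hp.out.two_le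
    omega
  obtain ⟨R, hR⟩ : ∃ R : (ZMod p)[X], R = X ^ ((p - 1) / 2) - C (-1) := ⟨_, rfl⟩
  have hR0 : R ≠ 0 := hR ▸ X_pow_sub_C_ne_zero hd _
  refine le_trans (card_le_card (t := R.roots.toFinset) fun t ht => ?_)
    ((Multiset.toFinset_card_le _).trans ((card_roots' R).trans ?_))
  · rw [Multiset.mem_toFinset, mem_roots hR0, IsRoot, hR]
    simp [(Finset.mem_filter.1 ht).2]
  · rw [hR, natDegree_X_pow_sub_C]

theorem half_power_not_affine (hp2 : p ≠ 2) :
    ¬∃ a b, ∀ x : ZMod p, x ^ ((p + 1) / 2) = a * x + b := by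
  have hodd := hp.out.eq_two_or_odd.resolve_left hp2
  have h2 := hp.out.two_le
  rintro ⟨a, b, h⟩
  have h0 := h 0
  have h1 := h 1
  simp only [zero_pow (show (p + 1) / 2 ≠ 0 by omega), mul_zero, zero_add] at h0
  simp only [one_pow, mul_one, ← h0, add_zero] at h1
  have hall : ∀ x : ZMod p, x ≠ 0 → x ^ ((p - 1) / 2) = 1 := fun x hx => by
    have h' := h x
    rw [← h1, one_mul, ← h0, add_zero, show (p + 1) / 2 = (p - 1) / 2 + 1 by omega, pow_succ] at h'
    exact mul_right_cancel₀ hx (h'.trans (one_mul x).symm)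
  obtain ⟨R, hR⟩ : ∃ R : (ZMod p)[X], R = X ^ ((p - 1) / 2) - C 1 := ⟨_, rfl⟩
  have hR0 : R ≠ 0 := hR ▸ X_pow_sub_C_ne_zero (by omega) _
  have hle := le_trans (card_le_card (s := (univ : Finset (ZMod p)).erase 0)
    (t := R.roots.toFinset) fun x hx => by
      rw [Multiset.mem_toFinset, mem_roots hR0, IsRoot, hR]
      simp [hall x (Finset.ne_of_mem_erase hx)])
    ((Multiset.toFinset_card_le _).trans (card_roots' R))
  rw [card_erase_of_mem (mem_univ _), card_univ, ZMod.card, hR, natDegree_X_pow_sub_C] at hle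
  omega

/-- **The bound is attained.** -/
theorem card_slopes_half_power (hp2 : p ≠ 2) :
    2 * (slopes fun x : ZMod p => x ^ ((p + 1) / 2)).card = p + 3 := by
  have hodd := hp.out.eq_two_or_odd.resolve_left hp2
  have hne2 : (2 : ZMod p) ≠ 0 := fun h => by
    have := (ZMod.natCast_eq_zero_iff 2 p).1 (by exact_mod_cast h)
    exact hp2 ((Nat.prime_dvd_prime_iff_eq hp.out Nat.prime_two).1 this)
  refine le_antisymm ?_ (two_mul_card_slopes (half_power_not_affine hp2))
  obtain ⟨N, hN⟩ : ∃ N : Finset (ZMod p),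
      N = univ.filter fun t : ZMod p => t ^ ((p - 1) / 2) = -1 := ⟨_, rfl⟩
  have hsub : slopes (fun x : ZMod p => x ^ ((p + 1) / 2)) ⊆
      {1, -1} ∪ N.image (fun t => (t + 1) / (t - 1)) := by
    intro m hm
    obtain ⟨x, y, hne, rfl⟩ := mem_slopes.1 hm
    rw [mem_union, mem_insert, Finset.mem_singleton]
    have hpow : ∀ z : ZMod p, z ^ ((p + 1) / 2) = z ^ ((p - 1) / 2) * z := fun z => by
      rw [← pow_succ]
      congr 1
      omega
    simp only [hpow]
    obtain ⟨cx, hcx, hx'⟩ : ∃ c, (c = 1 ∨ c = -1) ∧ x ^ ((p - 1) / 2) * x = c * x := by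
      rcases eq_or_ne x 0 with rfl | hx
      · exact ⟨1, Or.inl rfl, by simp⟩
      · exact ⟨_, pow_half_eq hp2 hx, rfl⟩
    obtain ⟨cy, hcy, hy'⟩ : ∃ c, (c = 1 ∨ c = -1) ∧ y ^ ((p - 1) / 2) * y = c * y := by
      rcases eq_or_ne y 0 with rfl | hy
      · exact ⟨1, Or.inl rfl, by simp⟩
      · exact ⟨_, pow_half_eq hp2 hy, rfl⟩
    have hd : y - x ≠ 0 := sub_ne_zero.2 (Ne.symm hne)
    rw [hx', hy']
    by_cases hsame : cx = cy
    · refine Or.inl ?_
      rw [hsame, ← mul_sub, mul_div_assoc, div_self hd, mul_one]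
      exact hcy
    rcases eq_or_ne x 0 with rfl | hx
    · refine Or.inl ?_
      rw [sub_zero] at hd
      rw [mul_zero, sub_zero, sub_zero, mul_div_assoc, div_self hd, mul_one]
      exact hcy
    rcases eq_or_ne y 0 with rfl | hy
    · refine Or.inl ?_
      rw [zero_sub, neg_ne_zero] at hd
      rw [mul_zero, zero_sub, zero_sub, neg_div_neg_eq, mul_div_assoc, div_self hd, mul_one]
      exact hcx
    have ex : x ^ ((p - 1) / 2) = cx := mul_right_cancel₀ hx hx'
    have ey : y ^ ((p - 1) / 2) = cy := mul_right_cancel₀ hy hy'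
    refine Or.inr (Finset.mem_image.2 ?_)
    rcases hcy with rfl | rfl
    · obtain rfl : cx = -1 := hcx.resolve_left hsame
      refine ⟨y / x, ?_, ?_⟩
      · rw [hN, Finset.mem_filter, div_pow, ex, ey]
        simp
      · rw [div_add_one hx, div_sub_one hx, div_div_div_cancel_right₀ hx]
        congr 1
        ring
    · obtain rfl : cx = 1 := hcx.resolve_right hsame
      refine ⟨x / y, ?_, ?_⟩
      · rw [hN, Finset.mem_filter, div_pow, ex, ey]
        simp
      · rw [div_add_one hy, div_sub_one hy, div_div_div_cancel_right₀ hy,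
          ← neg_div_neg_eq (x + y)]
        congr 1 <;> ring
  have h1 := card_le_card hsub
  have h2 := (Finset.card_union_le _ _).trans (add_le_add (card_le_two (a := (1 : ZMod p))
    (b := -1)) ((card_image_le (f := fun t : ZMod p => (t + 1) / (t - 1))).trans
      (hN ▸ card_nonsquares_le hp2 : N.card ≤ (p - 1) / 2)))
  omega

end FA.RedeiDirections

end
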